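import Fermat.Agent.S41.Spec.Core

/-!
# S41, block CORE — `ribetCore : Spec.RibetCoreStatement` (helper231)

Short route (no projectors, no Artin–Rees).  With `v` the starting eigenvector pair,
`y₀ = i v` satisfies `j y₀ = p u₀`.  In `C = A² / range j` the class of `u₀` is killed by
`p` and by all `t_l - a_l`.  By duality and the Ihara hypothesis, `C = p C + ∑ (t_l - a_l) C`
(`mem_of_leftOrth`), so by Nakayama (`eq_zero_of_family_nakayama`) the class of `u₀` vanishes: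
`u₀ = j b`, and `y = y₀ - p b` is the wanted element of `ker j`.

* `eq_zero_of_family_nakayama` (Mathlib only): `C` a finitely generated abelian group, `S l`
  commuting endomorphisms, `C = p C + ∑ S l C`; then every `u` with `p u = 0`, `S l u = 0`
  vanishes.
* `mem_of_leftOrth` (Mathlib only): `M` a finitely generated abelian group,
  `β : M → M → ZMod p` biadditive, `U ⊇ p M` a subgroup whose left orthogonal is contained in
  `p M`.  Then `U = M`.
-/

set_option autoImplicit false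
set_option linter.style.haveILetI false

namespace Fermat.Agent.S41.H231

open scoped IsMulCommutative in
theorem eq_zero_of_family_nakayama {ι : Type*} {C : Type*} [AddCommGroup C] [Module.Finite ℤ C]
    (S : ι → Module.End ℤ C) (hS : ∀ l l', S l * S l' = S l' * S l) (p : ℤ)
    (hC : ∀ c : C, c ∈ (LinearMap.range (p • (LinearMap.id : C →ₗ[ℤ] C))) ⊔
      ⨆ l, LinearMap.range (S l))
    (u : C) (hpu : p • u = 0) (hSu : ∀ l, S l u = 0) : u = 0 := by
  classical
  have hcomm : ∀ a ∈ Set.range S, ∀ b ∈ Set.range S, a * b = b * a := by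
    rintro _ ⟨l, rfl⟩ _ ⟨l', rfl⟩
    exact hS l l'
  haveI : IsMulCommutative (Algebra.adjoin ℤ (Set.range S)) :=
    Algebra.isMulCommutative_adjoin ℤ hcomm
  let g : ι → Algebra.adjoin ℤ (Set.range S) := fun l => ⟨S l, Algebra.subset_adjoin ⟨l, rfl⟩⟩
  let φ : MvPolynomial ι ℤ →+* Algebra.adjoin ℤ (Set.range S) :=
    (MvPolynomial.aeval g : MvPolynomial ι ℤ →ₐ[ℤ] Algebra.adjoin ℤ (Set.range S)).toRingHom
  let ψ : MvPolynomial ι ℤ →+* Module.End ℤ C :=
    (Algebra.adjoin ℤ (Set.range S)).val.toRingHom.comp φ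
  letI : Module (MvPolynomial ι ℤ) C := Module.compHom C ψ
  have hX : ∀ (l : ι) (c : C), (MvPolynomial.X l : MvPolynomial ι ℤ) • c = S l c := by
    intro l c
    show ψ (MvPolynomial.X l) c = S l c
    simp [ψ, φ, g]
  have hCn : ∀ (n : ℤ) (c : C), (MvPolynomial.C n : MvPolynomial ι ℤ) • c = n • c := by
    intro n c
    show ψ (MvPolynomial.C n) c = n • c
    simp [ψ, φ]
  haveI : Module.Finite (MvPolynomial ι ℤ) C :=
    Module.Finite.of_restrictScalars_finite ℤ (MvPolynomial ι ℤ) C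
  let I : Ideal (MvPolynomial ι ℤ) :=
    Ideal.span (insert (MvPolynomial.C p) (Set.range (MvPolynomial.X (R := ℤ) (σ := ι))))
  have hle : (⊤ : Submodule (MvPolynomial ι ℤ) C) ≤ I • ⊤ := by
    intro c _
    have h1 : LinearMap.range (p • (LinearMap.id : C →ₗ[ℤ] C)) ≤
        (I • (⊤ : Submodule (MvPolynomial ι ℤ) C)).restrictScalars ℤ := by
      rintro _ ⟨c', rfl⟩
      show p • c' ∈ I • (⊤ : Submodule (MvPolynomial ι ℤ) C)
      rw [← hCn]
      exact Submodule.smul_mem_smul (Ideal.subset_span (Set.mem_insert _ _)) Submodule.mem_top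
    have h2 : (⨆ l, LinearMap.range (S l)) ≤
        (I • (⊤ : Submodule (MvPolynomial ι ℤ) C)).restrictScalars ℤ := by
      refine iSup_le fun l => ?_
      rintro _ ⟨c', rfl⟩
      show S l c' ∈ I • (⊤ : Submodule (MvPolynomial ι ℤ) C)
      rw [← hX]
      exact Submodule.smul_mem_smul
        (Ideal.subset_span (Set.mem_insert_of_mem _ ⟨l, rfl⟩)) Submodule.mem_top
    exact sup_le h1 h2 (hC c)
  obtain ⟨r, hr, hr0⟩ := Submodule.exists_sub_one_mem_and_smul_eq_zero_of_fg_of_le_smul I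
    (⊤ : Submodule (MvPolynomial ι ℤ) C) Module.Finite.fg_top hle
  have hann : I ≤ LinearMap.ker (LinearMap.toSpanSingleton (MvPolynomial ι ℤ) C u) := by
    refine Ideal.span_le.2 ?_
    rintro x (rfl | ⟨l, rfl⟩)
    · show MvPolynomial.C p ∈ LinearMap.ker (LinearMap.toSpanSingleton (MvPolynomial ι ℤ) C u)
      rw [LinearMap.mem_ker, LinearMap.toSpanSingleton_apply, hCn]
      exact hpu
    · show MvPolynomial.X l ∈ LinearMap.ker (LinearMap.toSpanSingleton (MvPolynomial ι ℤ) C u)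
      rw [LinearMap.mem_ker, LinearMap.toSpanSingleton_apply, hX]
      exact hSu l
  have h3 : (r - 1) • u = 0 := by
    have := hann hr
    rwa [LinearMap.mem_ker, LinearMap.toSpanSingleton_apply] at this
  have h4 : r • u = 0 := hr0 u Submodule.mem_top
  rw [sub_smul, h4, one_smul, zero_sub, neg_eq_zero] at h3
  exact h3

theorem mem_of_leftOrth {p : ℕ} [Fact p.Prime] {M : Type*} [AddCommGroup M] [Module.Finite ℤ M]
    (β : M → M → ZMod p)
    (hβl : ∀ x x' y, β (x + x') y = β x y + β x' y)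
    (hβr : ∀ x y y', β x (y + y') = β x y + β x y')
    (U : AddSubgroup M) (hpU : ∀ m : M, (p : ℤ) • m ∈ U)
    (horth : ∀ w : M, (∀ u ∈ U, β w u = 0) → ∃ z, w = (p : ℤ) • z) :
    ∀ m : M, m ∈ U := by
  classical
  -- the subgroup `p M`
  let P : AddSubgroup M := (zsmulAddGroupHom (p : ℤ) : M →+ M).range
  have hP : ∀ x : M, x ∈ P ↔ ∃ z, x = (p : ℤ) • z := by
    intro x
    constructor
    · rintro ⟨z, hz⟩
      exact ⟨z, hz.symm⟩
    · rintro ⟨z, hz⟩
      exact ⟨z, hz.symm⟩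
  have hPU : P ≤ U := by
    intro x hx
    obtain ⟨z, rfl⟩ := (hP x).1 hx
    exact hpU z
  -- additive versions of `β`
  let βr : M → (M →+ ZMod p) := fun w => AddMonoidHom.mk' (β w) (hβr w)
  have hpz : ∀ c : ZMod p, (p : ℤ) • c = 0 := by
    intro c
    rw [zsmul_eq_mul]
    simp
  have hβrP : ∀ w : M, ∀ x ∈ P, βr w x = 0 := by
    intro w x hx
    obtain ⟨z, rfl⟩ := (hP x).1 hx
    rw [map_zsmul]
    exact hpz _
  have hβlP : ∀ x ∈ P, ∀ y : M, β x y = 0 := by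
    intro x hx y
    obtain ⟨z, rfl⟩ := (hP x).1 hx
    let βl : M →+ ZMod p := AddMonoidHom.mk' (fun w => β w y) (fun a b => hβl a b y)
    have : βl ((p : ℤ) • z) = 0 := by
      rw [map_zsmul]
      exact hpz _
    exact this
  -- the quotient `V = M / p M`
  have hV : ∀ v : M ⧸ P, p • v = 0 := by
    intro v
    induction v using QuotientAddGroup.induction_on with
    | H m =>
      have : ((p • m : M) : M ⧸ P) = 0 := by
        rw [QuotientAddGroup.eq_zero_iff]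
        exact (hP _).2 ⟨m, by simp⟩
      exact this
  obtain ⟨inst⟩ : Nonempty (Module (ZMod p) (M ⧸ P)) := ⟨AddCommGroup.zmodModule hV⟩
  haveI : Module.Finite ℤ (M ⧸ P) :=
    Module.Finite.of_surjective (QuotientAddGroup.mk' P).toIntLinearMap
      (QuotientAddGroup.mk'_surjective P)
  haveI : Module.Finite (ZMod p) (M ⧸ P) :=
    Module.Finite.of_restrictScalars_finite ℤ (ZMod p) (M ⧸ P)
  -- the image of `U`
  obtain ⟨Ubar, hUbar'⟩ : ∃ Ubar : Submodule (ZMod p) (M ⧸ P),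
      ∀ v : M ⧸ P, (v ∈ Ubar ↔ ∃ u ∈ U, QuotientAddGroup.mk' P u = v) := by
    refine ⟨AddSubgroup.toZModSubmodule p (U.map (QuotientAddGroup.mk' P)), fun v => ?_⟩
    rw [← SetLike.mem_coe, AddSubgroup.coe_toZModSubmodule, SetLike.mem_coe,
      AddSubgroup.mem_map]
  let π : M →+ M ⧸ P := QuotientAddGroup.mk' P
  have hπ : Function.Surjective π := QuotientAddGroup.mk'_surjective P
  have hπ0 : ∀ m : M, π m = 0 ↔ m ∈ P := fun m => QuotientAddGroup.eq_zero_iff m
  have hUbar : ∀ v : M ⧸ P, (v ∈ Ubar ↔ ∃ u ∈ U, π u = v) := hUbar'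
  -- the descended form
  let b₀ : M → ((M ⧸ P) →+ ZMod p) := fun w =>
    QuotientAddGroup.lift P (βr w) (fun x hx => hβrP w x hx)
  have hb₀ : ∀ w m : M, b₀ w (π m) = β w m := fun w m => rfl
  let b₁ : M →+ (Ubar →ₗ[ZMod p] ZMod p) :=
    AddMonoidHom.mk' (fun w => ((b₀ w).toZModLinearMap p).comp Ubar.subtype) (by
      intro w w'
      apply LinearMap.ext
      rintro ⟨v, hv⟩
      obtain ⟨u, -, rfl⟩ := (hUbar v).1 hv
      show b₀ (w + w') (π u) = b₀ w (π u) + b₀ w' (π u)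
      rw [hb₀, hb₀, hb₀, hβl])
  have hb₁ : ∀ (w u : M) (hu : π u ∈ Ubar), b₁ w ⟨π u, hu⟩ = β w u :=
    fun w u hu => rfl
  let Λ₀ : (M ⧸ P) →+ (Ubar →ₗ[ZMod p] ZMod p) :=
    QuotientAddGroup.lift P b₁ (by
      intro x hx
      apply LinearMap.ext
      rintro ⟨v, hv⟩
      obtain ⟨u, -, rfl⟩ := (hUbar v).1 hv
      rw [hb₁]
      exact hβlP x hx u)
  have hΛ₀ : ∀ (w u : M) (hu : π u ∈ Ubar), Λ₀ (π w) ⟨π u, hu⟩ = β w u :=
    fun w u hu => rfl
  let Λ : (M ⧸ P) →ₗ[ZMod p] (Ubar →ₗ[ZMod p] ZMod p) := Λ₀.toZModLinearMap p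
  have hΛinj : Function.Injective Λ := by
    rw [← LinearMap.ker_eq_bot, LinearMap.ker_eq_bot']
    intro v hv
    obtain ⟨w, rfl⟩ := hπ v
    have hw : ∀ u ∈ U, β w u = 0 := by
      intro u hu
      have hu' : π u ∈ Ubar := (hUbar _).2 ⟨u, hu, rfl⟩
      have h := congrArg (fun f : Ubar →ₗ[ZMod p] ZMod p => f ⟨π u, hu'⟩) hv
      have h' : Λ₀ (π w) ⟨π u, hu'⟩ = 0 := h
      rw [hΛ₀] at h'
      exact h'
    obtain ⟨z, hz⟩ := horth w hw
    rw [hπ0]
    exact (hP w).2 ⟨z, hz⟩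
  have h1 : Module.finrank (ZMod p) (M ⧸ P) ≤ Module.finrank (ZMod p) Ubar := by
    calc Module.finrank (ZMod p) (M ⧸ P)
        ≤ Module.finrank (ZMod p) (Module.Dual (ZMod p) Ubar) :=
          LinearMap.finrank_le_finrank_of_injective hΛinj
      _ = Module.finrank (ZMod p) Ubar := Subspace.dual_finrank_eq
  have h2 : Ubar = ⊤ :=
    Submodule.eq_top_of_finrank_eq (le_antisymm (Submodule.finrank_le Ubar) h1)
  intro m
  have hm : π m ∈ Ubar := by rw [h2]; exact Submodule.mem_top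
  obtain ⟨u, hu, huv⟩ := (hUbar _).1 hm
  have h3 : -u + m ∈ P := (QuotientAddGroup.eq).1 huv
  have h4 : m = u + (-u + m) := by abel
  rw [h4]
  exact U.add_mem hu (hPU h3)

theorem ribetCore : Fermat.Agent.S41.Spec.RibetCoreStatement := by
  intro p _ ι A B _ _ _ _ _ _ tA tB T i₁ i₂ j₁ j₂ c μ a βA βB
    hcA _ hi1 hi2 hj1 hj2 h11 h22 h12 h21 hAl hAr hBl _ hndA hndB hsaA _ hadj1 hadj2
    hIh hLR hμ
  classical
  have hp0 : (p : ℤ) ≠ 0 := by exact_mod_cast (Fact.out : p.Prime).ne_zero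
  obtain ⟨x, hx, ⟨zT, hzT⟩, hex⟩ := hLR
  obtain ⟨k, hk⟩ := hμ
  have hTx : T x = μ • x + (p : ℤ) • zT := by rw [← hzT]; abel
  -- additivity consequences for `βA`
  have hA0r : ∀ w, βA w 0 = 0 := by
    intro w
    have := hAr w 0 0
    rw [add_zero] at this
    exact left_eq_add.mp this
  have hAzl : ∀ (n : ℤ) w m, βA (n • w) m = n • βA w m := by
    intro n w m
    exact map_zsmul (AddMonoidHom.mk' (fun w => βA w m) (fun a b => hAl a b m)) n w
  have hAzr : ∀ (n : ℤ) w m, βA w (n • m) = n • βA w m := by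
    intro n w m
    exact map_zsmul (AddMonoidHom.mk' (fun m => βA w m) (fun a b => hAr w a b)) n m
  have hAsl : ∀ w w' m, βA (w - w') m = βA w m - βA w' m := by
    intro w w' m
    exact map_sub (AddMonoidHom.mk' (fun w => βA w m) (fun a b => hAl a b m)) w w'
  have hAsr : ∀ w m m', βA w (m - m') = βA w m - βA w m' := by
    intro w m m'
    exact map_sub (AddMonoidHom.mk' (fun m => βA w m) (fun a b => hAr w a b)) m m'
  -- Step 1: the starting pair
  have key : ∃ v₁ v₂ : A, ¬ ((∃ z, v₁ = (p : ℤ) • z) ∧ (∃ z, v₂ = (p : ℤ) • z)) ∧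
      (∀ l, ∃ z, tA l v₁ - a l • v₁ = (p : ℤ) • z) ∧
      (∀ l, ∃ z, tA l v₂ - a l • v₂ = (p : ℤ) • z) ∧
      (∃ z, c • v₁ + T v₂ = (p : ℤ) • z) ∧ (∃ z, T v₁ + c • v₂ = (p : ℤ) • z) := by
    by_cases h : (∃ z, μ • x = (p : ℤ) • z) ∧ (∃ z, c • x = (p : ℤ) • z)
    · obtain ⟨⟨z1, hz1⟩, ⟨z2, hz2⟩⟩ := h
      refine ⟨x, 0, fun hh => hx hh.1, hex, fun l => ⟨0, by simp⟩, ⟨z2, ?_⟩, ⟨z1 + zT, ?_⟩⟩
      · rw [map_zero, add_zero, hz2]
      · rw [smul_zero, add_zero, hTx, hz1, smul_add]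
    · refine ⟨μ • x, -(c • x), ?_, ?_, ?_, ?_, ?_⟩
      · rintro ⟨h1, ⟨z2, hz2⟩⟩
        exact h ⟨h1, ⟨-z2, by rw [smul_neg, ← hz2, neg_neg]⟩⟩
      · intro l
        obtain ⟨z, hz⟩ := hex l
        refine ⟨μ • z, ?_⟩
        rw [map_smul, smul_comm (a l) μ x, ← smul_sub, hz, smul_comm]
      · intro l
        obtain ⟨z, hz⟩ := hex l
        refine ⟨-(c • z), ?_⟩
        rw [map_neg, map_smul, smul_neg, smul_comm (a l) c x, ← neg_sub', ← smul_sub, hz,
          smul_comm, smul_neg]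
      · refine ⟨-(c • zT), ?_⟩
        rw [map_neg, map_smul, hTx]
        module
      · refine ⟨μ • zT + k • x, ?_⟩
        rw [map_smul, hTx]
        have hk' : (μ ^ 2 - c ^ 2) • x = ((p : ℤ) * k) • x := by rw [hk]
        have e1 : μ • (μ • x + (p : ℤ) • zT) + c • -(c • x)
            = (μ ^ 2 - c ^ 2) • x + (p : ℤ) • (μ • zT) := by module
        rw [e1, hk']
        module
  obtain ⟨v₁, v₂, hv, hev1, hev2, ⟨u₁, hu₁⟩, ⟨u₂, hu₂⟩⟩ := key
  -- Step 2: `y₀ = i v`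
  have hj1y : j₁ (i₁ v₁ + i₂ v₂) = (p : ℤ) • u₁ := by rw [map_add, h11, h12, hu₁]
  have hj2y : j₂ (i₁ v₁ + i₂ v₂) = (p : ℤ) • u₂ := by rw [map_add, h21, h22, hu₂]
  have hy₀ : ¬ ∃ z, i₁ v₁ + i₂ v₂ = (p : ℤ) • z := fun h => hv (hIh v₁ v₂ h hev1 hev2)
  have hey₀ : ∀ l, ∃ z, tB l (i₁ v₁ + i₂ v₂) - a l • (i₁ v₁ + i₂ v₂) = (p : ℤ) • z := by
    intro l
    obtain ⟨z1, hz1⟩ := hev1 l
    obtain ⟨z2, hz2⟩ := hev2 l
    have h1 : tA l v₁ = a l • v₁ + (p : ℤ) • z1 := by rw [← hz1]; abel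
    have h2 : tA l v₂ = a l • v₂ + (p : ℤ) • z2 := by rw [← hz2]; abel
    refine ⟨i₁ z1 + i₂ z2, ?_⟩
    rw [map_add, hi1, hi2, h1, h2]
    simp only [map_add, map_smul, smul_add]
    abel
  -- Step 3: `(u₁, u₂)` lies in the range of `j`
  have hrange : ∃ b : B, j₁ b = u₁ ∧ j₂ b = u₂ := by
    let jj : B →ₗ[ℤ] A × A := j₁.prod j₂
    let J : Submodule ℤ (A × A) := LinearMap.range jj
    let s : ι → (A →ₗ[ℤ] A) := fun l => tA l - a l • LinearMap.id
    have hs : ∀ l m, s l m = tA l m - a l • m := fun l m => rfl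
    let Sop : ι → ((A × A) →ₗ[ℤ] (A × A)) := fun l => (s l).prodMap (s l)
    have hSop : ∀ l (m : A × A), Sop l m = (s l m.1, s l m.2) := fun l m => rfl
    have hsj1 : ∀ l b, s l (j₁ b) = j₁ (tB l b - a l • b) := by
      intro l b
      rw [hs, hj1, map_sub, map_smul]
    have hsj2 : ∀ l b, s l (j₂ b) = j₂ (tB l b - a l • b) := by
      intro l b
      rw [hs, hj2, map_sub, map_smul]
    have hSjj : ∀ l b, Sop l (jj b) = jj (tB l b - a l • b) := by
      intro l b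
      show (s l (j₁ b), s l (j₂ b)) = (j₁ _, j₂ _)
      rw [hsj1, hsj2]
    have hstab : ∀ l, J ≤ J.comap (Sop l) := by
      rintro l _ ⟨b, rfl⟩
      exact ⟨_, (hSjj l b).symm⟩
    have hscomm : ∀ l l' m, s l (s l' m) = s l' (s l m) := by
      intro l l' m
      simp only [hs, map_sub, map_smul, hcA l l' m]
      module
    let Sbar : ι → Module.End ℤ ((A × A) ⧸ J) := fun l => J.mapQ J (Sop l) (hstab l)
    have hSbar : ∀ l (m : A × A), Sbar l (J.mkQ m) = J.mkQ (Sop l m) := fun l m => rfl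
    have hSbarcomm : ∀ l l', Sbar l * Sbar l' = Sbar l' * Sbar l := by
      intro l l'
      apply LinearMap.ext
      intro cc
      obtain ⟨m, rfl⟩ := J.mkQ_surjective cc
      show Sbar l (Sbar l' (J.mkQ m)) = Sbar l' (Sbar l (J.mkQ m))
      rw [hSbar, hSbar, hSbar, hSbar]
      congr 1
      rw [hSop, hSop, hSop, hSop]
      show (s l (s l' m.1), s l (s l' m.2)) = (s l' (s l m.1), s l' (s l m.2))
      rw [hscomm l l' m.1, hscomm l l' m.2]
    -- the hypothesis `C = p C + ∑ S_l C` of Nakayama, from duality and Ihara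
    let N : Submodule ℤ ((A × A) ⧸ J) :=
      LinearMap.range ((p : ℤ) • (LinearMap.id : ((A × A) ⧸ J) →ₗ[ℤ] ((A × A) ⧸ J))) ⊔
        ⨆ l, LinearMap.range (Sbar l)
    let U : AddSubgroup (A × A) := (N.comap J.mkQ).toAddSubgroup
    have hU : ∀ m : A × A, m ∈ U ↔ J.mkQ m ∈ N := fun m => Iff.rfl
    have hUp : ∀ m : A × A, (p : ℤ) • m ∈ U := by
      intro m
      rw [hU]
      exact Submodule.mem_sup_left ⟨J.mkQ m, by simp⟩
    have hUJ : ∀ b : B, jj b ∈ U := by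
      intro b
      rw [hU]
      have : J.mkQ (jj b) = 0 := by
        rw [Submodule.mkQ_apply, Submodule.Quotient.mk_eq_zero]
        exact ⟨b, rfl⟩
      rw [this]
      exact N.zero_mem
    have hUS : ∀ l (m : A × A), Sop l m ∈ U := by
      intro l m
      rw [hU, ← hSbar]
      exact Submodule.mem_sup_right (Submodule.mem_iSup_of_mem l ⟨J.mkQ m, rfl⟩)
    have hall : ∀ m : A × A, m ∈ U := by
      refine mem_of_leftOrth (p := p) (fun w m => βA w.1 m.1 + βA w.2 m.2) ?_ ?_ U hUp ?_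
      · intro w w' m
        show βA (w.1 + w'.1) m.1 + βA (w.2 + w'.2) m.2 = _
        rw [hAl, hAl]
        abel
      · intro w m m'
        show βA w.1 (m.1 + m'.1) + βA w.2 (m.2 + m'.2) = _
        rw [hAr, hAr]
        abel
      · rintro ⟨w₁, w₂⟩ hw
        have hw' : ∀ m ∈ U, βA w₁ m.1 + βA w₂ m.2 = 0 := hw
        have hI : ∃ z, i₁ w₁ + i₂ w₂ = (p : ℤ) • z := by
          apply hndB
          intro b
          rw [hBl, hadj1, hadj2]
          exact hw' (jj b) (hUJ b)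
        have hE1 : ∀ l, ∃ z, tA l w₁ - a l • w₁ = (p : ℤ) • z := by
          intro l
          apply hndA
          intro m
          have h := hw' (Sop l (m, 0)) (hUS l (m, 0))
          rw [hSop] at h
          simp only [hs, map_zero, smul_zero, sub_zero, hA0r, add_zero] at h
          rw [hAsl, hsaA, hAzl, ← hAzr, ← hAsr]
          exact h
        have hE2 : ∀ l, ∃ z, tA l w₂ - a l • w₂ = (p : ℤ) • z := by
          intro l
          apply hndA
          intro m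
          have h := hw' (Sop l (0, m)) (hUS l (0, m))
          rw [hSop] at h
          simp only [hs, map_zero, smul_zero, sub_zero, hA0r, zero_add] at h
          rw [hAsl, hsaA, hAzl, ← hAzr, ← hAsr]
          exact h
        obtain ⟨⟨z1, hz1⟩, ⟨z2, hz2⟩⟩ := hIh w₁ w₂ hI hE1 hE2
        exact ⟨(z1, z2), by rw [hz1, hz2]; rfl⟩
    have hC : ∀ cc : (A × A) ⧸ J, cc ∈
        LinearMap.range ((p : ℤ) • (LinearMap.id : ((A × A) ⧸ J) →ₗ[ℤ] ((A × A) ⧸ J))) ⊔
          ⨆ l, LinearMap.range (Sbar l) := by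
      intro cc
      obtain ⟨m, rfl⟩ := J.mkQ_surjective cc
      exact (hU m).1 (hall m)
    -- the class of `(u₁, u₂)`
    have hpu : (p : ℤ) • J.mkQ (u₁, u₂) = 0 := by
      rw [← map_smul, Submodule.mkQ_apply, Submodule.Quotient.mk_eq_zero]
      refine ⟨i₁ v₁ + i₂ v₂, ?_⟩
      show (j₁ (i₁ v₁ + i₂ v₂), j₂ (i₁ v₁ + i₂ v₂)) = (p : ℤ) • (u₁, u₂)
      rw [hj1y, hj2y]
      rfl
    have hSu : ∀ l, Sbar l (J.mkQ (u₁, u₂)) = 0 := by
      intro l
      obtain ⟨z, hz⟩ := hey₀ l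
      rw [hSbar, Submodule.mkQ_apply, Submodule.Quotient.mk_eq_zero]
      refine ⟨z, ?_⟩
      have h1 : (p : ℤ) • jj z = (p : ℤ) • Sop l (u₁, u₂) := by
        rw [← map_smul, ← hz, ← hSjj, ← map_smul]
        congr 1
        show (j₁ (i₁ v₁ + i₂ v₂), j₂ (i₁ v₁ + i₂ v₂)) = (p : ℤ) • (u₁, u₂)
        rw [hj1y, hj2y]
        rfl
      exact smul_right_injective (A × A) hp0 h1
    have h0 := eq_zero_of_family_nakayama Sbar hSbarcomm (p : ℤ) hC (J.mkQ (u₁, u₂)) hpu hSu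
    rw [Submodule.mkQ_apply, Submodule.Quotient.mk_eq_zero] at h0
    obtain ⟨b, hb⟩ := h0
    refine ⟨b, ?_, ?_⟩
    · exact congrArg Prod.fst hb
    · exact congrArg Prod.snd hb
  -- Step 4: the element of `ker j`
  obtain ⟨b, hb1, hb2⟩ := hrange
  refine ⟨i₁ v₁ + i₂ v₂ - (p : ℤ) • b, ?_, ?_, ?_, ?_⟩
  · rw [map_sub, map_smul, hj1y, hb1, sub_self]
  · rw [map_sub, map_smul, hj2y, hb2, sub_self]
  · rintro ⟨z, hz⟩
    exact hy₀ ⟨z + b, by rw [smul_add, ← hz]; abel⟩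
  · intro l
    obtain ⟨z, hz⟩ := hey₀ l
    have h1 : tB l (i₁ v₁ + i₂ v₂) = a l • (i₁ v₁ + i₂ v₂) + (p : ℤ) • z := by
      rw [← hz]; abel
    refine ⟨z - (tB l b - a l • b), ?_⟩
    rw [map_sub, map_smul, h1]
    module

end Fermat.Agent.S41.H231
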